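import Mathlib
import Fermat.Agent.LT.T1.Spec
import Fermat.Agent.LT.T7.Level2
import Fermat.Agent.LT.T7.H40.ProjSpec
import Fermat.Agent.LT.T7.H949.FinProj
import Fermat.Agent.LT.A2.H751.LocalCont

/-!
# Row LT, tower T7 (helper247): THE IWAHORI PROJECTOR, core for every number field and every type

OFF-MAIN.  No hole, nothing assumed.  ADDITIVE (new names only, suffix `247`).

The operator is the mean `H949.avg949 𝔫 𝒦` of helper949 (`LT/T7/H949/FinProj.lean`) over the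
cosets of `U(𝔫)` in a subgroup `𝒦 ≤ GL₂(𝒪̂)` (trivial at infinity).  Here: the facts which
`H949.finProjC949` does not state, for an ARBITRARY `K_∞`-type `τ`:

* `avg_add247`, `avg_smul247`            : the mean is linear on ALL functions;
* `isCuspFn_avg247`                      : it maps cusp functions of level `𝔫` and type `τ` to
  cusp functions of level `𝔫` and type `τ` (if `U(𝔫) ≤ 𝒦`);
* `stab_avg247`, `isIwInv_avg247`        : the mean is right invariant under `𝒦`;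
* `avg_comm_mul247`                      : twisted commutation with the elements commuting with `𝒦`;
* `inner_avg247`                         : `⟨P ψ, χ⟩ = ⟨ψ, χ⟩` for `χ` invariant under `𝒦`;
* `heckeSys_conj247`, `scalarUnif_comm247`, `hecke_avg247` : the mean preserves the Hecke
  eigenfunctions at EVERY finite place (conjugation of a Hecke coset system by an element of
  `GL₂(𝒪̂)` is a Hecke coset system; the scalar uniformisers are central);
* `mean_avg247`                          : the mean preserves the eigenfunctions of the integral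
  means along a continuous family supported at the infinite places.
-/

set_option autoImplicit false
set_option linter.style.haveILetI false
set_option linter.unusedSectionVars false
set_option linter.unusedVariables false

open AutomorphicForm IsDedekindDomain NumberField MeasureTheory
open scoped ComplexConjugate

noncomputable section

namespace Fermat.Agent.LT.T7.H247

open Fermat.Agent.LT.H556 Fermat.Agent.LT.H556.A0 Fermat.Agent.LT.T7 Fermat.Agent.LT.T7.H40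
open Fermat.Agent.LT.T7.H949

attribute [local instance] Fermat.Agent.LT.T5.instMeasurableSpaceG

variable {K : Type} [Field K] [NumberField K]

/-! ## 1. Central elements, conjugation of Hecke coset systems -/

/-- A scalar uniformiser is central. -/
theorem scalarUnif_comm247 {v : HeightOneSpectrum (𝓞 K)} {z : G K}
    (hz : IsScalarUniformizerAt v z) (h : G K) : h * z = z * h := by
  obtain ⟨⟨hz1, hz2⟩, c, -, hc⟩ := hz
  refine G_ext949 (fun w => ?_) (fun v' => ?_)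
  · rw [infMat_mul949, infMat_mul949, (trivAtInf_iff949 w z).1 (hz1 w), one_mul, mul_one]
  · rw [finComp_mul949, finComp_mul949]
    by_cases hv : v' = v
    · subst hv
      rw [hc]
      ext i j
      rw [Matrix.mul_diagonal, Matrix.diagonal_mul, mul_comm]
    · rw [(hz2 v' hv : finComp v' z = 1), one_mul, mul_one]

open Classical in
/-- The conjugate of a Hecke coset system by an element of `GL₂(𝒪̂)` is a Hecke coset system. -/
theorem heckeSys_conj247 {v : HeightOneSpectrum (𝓞 K)} {H : Finset (G K)}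
    (hH : IsHeckeCosetSystem v H) {k : G K} (hk : k ∈ K0949 K) :
    IsHeckeCosetSystem v (H.image fun h => k⁻¹ * h * k) := by
  classical
  obtain ⟨hcard, hloc, hne⟩ := hH
  have hinj : Function.Injective (fun h : G K => k⁻¹ * h * k) := by
    intro a b hab
    exact mul_left_cancel (mul_right_cancel hab)
  refine ⟨by rw [Finset.card_image_of_injective _ hinj, hcard], ?_, ?_⟩
  · intro h' hh'
    obtain ⟨h, hh, rfl⟩ := Finset.mem_image.1 hh'
    obtain ⟨⟨h1, h2⟩, h3, h4⟩ := hloc h hh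
    refine ⟨⟨fun w => ?_, fun v' hv' => ?_⟩, ?_, ?_⟩
    · exact trivAtInf_mul949 (trivAtInf_mul949 (trivAtInf_inv949 (hk.1 w)) (h1 w)) (hk.1 w)
    · show finComp v' _ = 1
      rw [finComp_mul949, finComp_mul949, (h2 v' hv' : finComp v' h = 1), mul_one,
        finComp_inv_mul949]
    · exact isIntegralAt_mul949 (isIntegralAt_mul949 (hk.2 v).2 h3) (hk.2 v).1
    · have e : (finComp v k⁻¹).det * (finComp v k).det = 1 := by
        rw [← Matrix.det_mul, finComp_inv_mul949, Matrix.det_one]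
      rw [finComp_mul949, finComp_mul949, Matrix.det_mul, Matrix.det_mul, mul_right_comm, e,
        one_mul]
      exact h4
  · intro a ha b hb hab hint
    obtain ⟨h, hh, rfl⟩ := Finset.mem_image.1 ha
    obtain ⟨h', hh', rfl⟩ := Finset.mem_image.1 hb
    have hne' : h ≠ h' := fun e => hab (by rw [e])
    apply hne h hh h' hh' hne'
    have e : h⁻¹ * h' = k * ((k⁻¹ * h * k)⁻¹ * (k⁻¹ * h' * k)) * k⁻¹ := by group
    rw [e]
    exact isIntegralAt_mul949 (isIntegralAt_mul949 (hk.2 v).1 hint) (hk.2 v).2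

/-! ## 2. The mean -/

section Avg

variable (𝔫 : Ideal (𝓞 K)) (𝒦 : Subgroup (G K)) [Fintype (𝒦 ⧸ (U949 𝔫).subgroupOf 𝒦)]

theorem avg_apply247 (ψ : G K → ℂ) (x : G K) :
    avg949 𝔫 𝒦 ψ x = ((Fintype.card (𝒦 ⧸ (U949 𝔫).subgroupOf 𝒦) : ℂ))⁻¹
      * ∑ q, ψ (x * rep949 𝔫 𝒦 q) := rfl

/-- The mean is additive. -/
theorem avg_add247 (ψ ψ' : G K → ℂ) :
    avg949 𝔫 𝒦 (ψ + ψ') = avg949 𝔫 𝒦 ψ + avg949 𝔫 𝒦 ψ' := by
  funext x
  rw [Pi.add_apply, avg_apply247, avg_apply247, avg_apply247, ← mul_add,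
    ← Finset.sum_add_distrib]
  rfl

/-- The mean is homogeneous. -/
theorem avg_smul247 (a : ℂ) (ψ : G K → ℂ) :
    avg949 𝔫 𝒦 (a • ψ) = a • avg949 𝔫 𝒦 ψ := by
  funext x
  rw [Pi.smul_apply, smul_eq_mul, avg_apply247, avg_apply247]
  have e : ∀ q : 𝒦 ⧸ (U949 𝔫).subgroupOf 𝒦,
      (a • ψ) (x * rep949 𝔫 𝒦 q) = a * ψ (x * rep949 𝔫 𝒦 q) := fun q => rfl
  rw [Finset.sum_congr rfl (fun q _ => e q), ← Finset.mul_sum]
  ring

/-- Twisted commutation: an element commuting with `𝒦` which multiplies `ψ` by `c` multiplies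
the mean by `c`. -/
theorem avg_comm_mul247 {ψ : G K → ℂ} {z : G K} {c : ℂ} (hz : ∀ h ∈ 𝒦, h * z = z * h)
    (hψ : ∀ g, ψ (g * z) = c * ψ g) (x : G K) :
    avg949 𝔫 𝒦 ψ (x * z) = c * avg949 𝔫 𝒦 ψ x := by
  rw [avg_apply247, avg_apply247]
  have e : ∀ q : 𝒦 ⧸ (U949 𝔫).subgroupOf 𝒦,
      ψ (x * z * rep949 𝔫 𝒦 q) = c * ψ (x * rep949 𝔫 𝒦 q) := by
    intro q
    rw [mul_assoc, ← hz _ (rep_mem949 𝔫 𝒦 q), ← mul_assoc, hψ]
  rw [Finset.sum_congr rfl (fun q _ => e q), ← Finset.mul_sum]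
  ring

/-- The mean of a function invariant under `U(𝔫)` is invariant under `𝒦`. -/
theorem stab_avg247 {ψ : G K → ℂ} (hψ : ∀ u : G K, InLevelGroup 𝔫 u → ∀ g : G K, ψ (g * u) = ψ g)
    {k : G K} (hk : k ∈ 𝒦) (x : G K) : avg949 𝔫 𝒦 ψ (x * k) = avg949 𝔫 𝒦 ψ x :=
  KK_le_stab_avg949 𝔫 𝒦 (fun u hu => hψ u hu) hk x

/-- The mean of a cusp function of level `𝔫` and type `τ` is a cusp function of level `𝔫` and
type `τ`. -/
theorem isCuspFn_avg247 (hT : Fermat.Agent.LT.T1.T1Out K) (h𝒦 : 𝒦 ≤ K0949 K)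
    (hU : U949 𝔫 ≤ 𝒦) {τ : G K → ℂ} {r : G K} (hr : T5.IsRayGen r) {ψ : G K → ℂ}
    (hψ : T5.IsCuspFn 𝔫 τ r ψ) : T5.IsCuspFn 𝔫 τ r (avg949 𝔫 𝒦 ψ) := by
  have hcomm : ∀ z : G K, (∀ v : HeightOneSpectrum (𝓞 K), TrivAtFin v z) →
      ∀ h ∈ 𝒦, h * z = z * h := fun z hz h hh => commute_of_triv949 (h𝒦 hh).1 hz
  refine ⟨continuous_avg949 𝔫 𝒦 hψ.cont, bdd_avg949 𝔫 𝒦 hψ.bdd, ⟨?_, ?_, ?_, ?_⟩, ?_⟩
  · intro γ g
    rw [avg_apply247, avg_apply247]
    congr 1
    refine Finset.sum_congr rfl fun q _ => ?_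
    rw [mul_assoc, hψ.aut.left_inv]
  · intro u hu g
    exact stab_avg247 𝔫 𝒦 hψ.aut.level_inv (hU hu) g
  · intro w k hk g
    exact avg_comm_mul247 𝔫 𝒦 (hcomm k hk.1.2) (hψ.aut.arch_compact w k hk) g
  · intro g
    exact avg_comm949 𝔫 𝒦 (hcomm r hr.1) hψ.aut.ray g
  · intro μ' hμ' D hD n hn g
    have hint := integrableOn_unip949 hT hψ.cont hψ.bdd μ' hμ' D hD n hn
    have e : (fun x => avg949 𝔫 𝒦 ψ (n x * g))
        = fun x => ((Fintype.card (𝒦 ⧸ (U949 𝔫).subgroupOf 𝒦) : ℂ))⁻¹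
            * ∑ q, ψ (n x * (g * rep949 𝔫 𝒦 q)) := by
      funext x
      rw [avg_apply247]
      congr 1
      refine Finset.sum_congr rfl fun q _ => ?_
      rw [mul_assoc]
    rw [e, integral_const_mul, integral_finsetSum _ (fun q _ => hint _)]
    rw [Finset.sum_eq_zero (fun q _ => hψ.cuspidal μ' hμ' D hD n hn _), mul_zero]

/-- The mean is Iwahori invariant along the orbit as soon as `𝒦` contains the Iwahori
elements. -/
theorem isIwInv_avg247 {l : ℕ} {o : ℕ → HeightOneSpectrum (𝓞 K)}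
    (hIw : iwSet949 l o ⊆ (𝒦 : Set (G K))) {ψ : G K → ℂ}
    (hψ : ∀ u : G K, InLevelGroup 𝔫 u → ∀ g : G K, ψ (g * u) = ψ g) :
    IsIwInv l o (avg949 𝔫 𝒦 ψ) := by
  intro h ha hb hc x
  exact stab_avg247 𝔫 𝒦 hψ (hIw ⟨ha, hb, hc⟩) x

/-- The mean preserves the invariance under the positive scalars at infinity. -/
theorem posInv_avg247 (h𝒦 : 𝒦 ≤ K0949 K) {ψ : G K → ℂ}
    (hψ : ∀ (w : InfinitePlace K) (z : G K), IsArchPosScalar w z → ∀ g : G K, ψ (g * z) = ψ g)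
    (w : InfinitePlace K) (z : G K) (hz : IsArchPosScalar w z) (g : G K) :
    avg949 𝔫 𝒦 ψ (g * z) = avg949 𝔫 𝒦 ψ g :=
  avg_comm949 𝔫 𝒦 (fun h hh => commute_of_triv949 (h𝒦 hh).1 hz.1.2) (hψ w z hz) g

/-- `⟨P ψ, χ⟩ = ⟨ψ, χ⟩` for `χ` invariant under `𝒦`. -/
theorem inner_avg247 (hTI : TranslInnerC K) {μ : Measure (G K)} {F : Set (G K)} {r : G K}
    (hFr : T5.IsFrame μ F) (hr : T5.IsRayGen r) {τ τ' : G K → ℂ} {𝔪 𝔪' : Ideal (𝓞 K)}
    {ψ χ : G K → ℂ} (hψ : T5.IsCuspFn 𝔪 τ r ψ) (hχ : T5.IsCuspFn 𝔪' τ' r χ)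
    (hχstab : ∀ k ∈ 𝒦, ∀ x, χ (x * k) = χ x) :
    T5.innerD μ F (avg949 𝔫 𝒦 ψ) χ = T5.innerD μ F ψ χ := by
  have : BorelSpace (G K) := ⟨rfl⟩
  have : IsFiniteMeasure (μ.restrict F) := ⟨by simpa using hFr.finite⟩
  obtain ⟨Cψ, hCψ⟩ := hψ.bdd
  obtain ⟨Cχ, hCχ⟩ := hχ.bdd
  have hCψ0 : 0 ≤ Cψ := (norm_nonneg _).trans (hCψ 1)
  have hint : ∀ h : G K, Integrable (fun x => ψ (x * h) * conj (χ x)) (μ.restrict F) := by
    intro h
    refine Integrable.of_bound (C := Cψ * Cχ) ?_ (Filter.Eventually.of_forall fun x => ?_)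
    · exact ((hψ.cont.comp (continuous_mul_const h)).mul
        (Complex.continuous_conj.comp hχ.cont)).aestronglyMeasurable
    · rw [norm_mul, RCLike.norm_conj]
      exact mul_le_mul (hCψ _) (hCχ _) (norm_nonneg _) hCψ0
  have htr : ∀ q : 𝒦 ⧸ (U949 𝔫).subgroupOf 𝒦,
      ∫ x in F, ψ (x * rep949 𝔫 𝒦 q) * conj (χ x) ∂μ = ∫ x in F, ψ x * conj (χ x) ∂μ := by
    intro q
    have h1 := hTI μ F r hFr hr (fun x => ψ x * conj (χ x))
      (hψ.cont.mul (Complex.continuous_conj.comp hχ.cont))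
      ⟨Cψ * Cχ, fun g => by
        rw [norm_mul, RCLike.norm_conj]
        exact mul_le_mul (hCψ _) (hCχ _) (norm_nonneg _) hCψ0⟩
      (fun γ g => by
        show ψ _ * conj (χ _) = _
        rw [hψ.aut.left_inv, hχ.aut.left_inv])
      (fun g => by
        show ψ _ * conj (χ _) = _
        rw [hψ.aut.ray, hχ.aut.ray])
      (rep949 𝔫 𝒦 q)
    rw [← h1]
    refine integral_congr_ae (Filter.Eventually.of_forall fun x => ?_)
    show ψ _ * conj (χ x) = ψ _ * conj (χ _)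
    rw [hχstab _ (rep_mem949 𝔫 𝒦 q) x]
  unfold T5.innerD
  have e : (fun x => avg949 𝔫 𝒦 ψ x * conj (χ x))
      = fun x => ((Fintype.card (𝒦 ⧸ (U949 𝔫).subgroupOf 𝒦) : ℂ))⁻¹
          * ∑ q, ψ (x * rep949 𝔫 𝒦 q) * conj (χ x) := by
    funext x
    rw [avg_apply247, mul_assoc, Finset.sum_mul]
  rw [e, integral_const_mul, integral_finsetSum _ (fun q _ => hint _),
    Finset.sum_congr rfl (fun q _ => htr q), Finset.sum_const, Finset.card_univ,
    nsmul_eq_mul, ← mul_assoc, inv_mul_cancel₀ (card_ne_zero949 𝔫 𝒦), one_mul]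

/-- The mean preserves the Hecke eigenfunctions (any finite place, same eigenvalues). -/
theorem hecke_avg247 (h𝒦 : 𝒦 ≤ K0949 K) {ψ : G K → ℂ} {v : HeightOneSpectrum (𝓞 K)}
    {a b : ℂ} (h : IsHeckeEigenAt ψ v a b) : IsHeckeEigenAt (avg949 𝔫 𝒦 ψ) v a b := by
  classical
  refine ⟨fun H hH g => ?_, fun z hz g => ?_⟩
  · have hq : ∀ q : 𝒦 ⧸ (U949 𝔫).subgroupOf 𝒦,
        ∑ h' ∈ H, ψ (g * h' * rep949 𝔫 𝒦 q)
          = ((Real.sqrt (Ideal.absNorm v.asIdeal : ℝ) : ℝ) : ℂ) * a * ψ (g * rep949 𝔫 𝒦 q) := by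
      intro q
      have hk := h𝒦 (rep_mem949 𝔫 𝒦 q)
      have hinj : Function.Injective (fun h : G K => (rep949 𝔫 𝒦 q)⁻¹ * h * rep949 𝔫 𝒦 q) := by
        intro x y hxy
        exact mul_left_cancel (mul_right_cancel hxy)
      have h1 := h.1 _ (heckeSys_conj247 hH hk) (g * rep949 𝔫 𝒦 q)
      rw [Finset.sum_image (fun x _ y _ hxy => hinj hxy)] at h1
      rw [← h1]
      refine Finset.sum_congr rfl fun h' _ => ?_
      congr 1
      group
    calc ∑ h' ∈ H, avg949 𝔫 𝒦 ψ (g * h')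
        = ((Fintype.card (𝒦 ⧸ (U949 𝔫).subgroupOf 𝒦) : ℂ))⁻¹
            * ∑ q, ∑ h' ∈ H, ψ (g * h' * rep949 𝔫 𝒦 q) := by
          simp only [avg_apply247]
          rw [← Finset.mul_sum, Finset.sum_comm]
      _ = ((Fintype.card (𝒦 ⧸ (U949 𝔫).subgroupOf 𝒦) : ℂ))⁻¹
            * ∑ q, ((Real.sqrt (Ideal.absNorm v.asIdeal : ℝ) : ℝ) : ℂ) * a
                * ψ (g * rep949 𝔫 𝒦 q) := by
          rw [Finset.sum_congr rfl (fun q _ => hq q)]
      _ = ((Real.sqrt (Ideal.absNorm v.asIdeal : ℝ) : ℝ) : ℂ) * a * avg949 𝔫 𝒦 ψ g := by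
          rw [avg_apply247, ← Finset.mul_sum]
          ring
  · exact avg_comm_mul247 𝔫 𝒦 (fun h _ => scalarUnif_comm247 hz h) (h.2 z hz) g

/-- The mean preserves the eigenfunctions of an integral mean along a continuous family of
elements which are trivial at the finite places. -/
theorem mean_avg247 (h𝒦 : 𝒦 ≤ K0949 K) {ψ : G K → ℂ} (hc : Continuous ψ) {Y : ℝ → G K}
    (hYc : Continuous Y) (hYf : ∀ θ (v : HeightOneSpectrum (𝓞 K)), TrivAtFin v (Y θ))
    {κ : ℝ → ℂ} (hκ : Continuous κ) (a b : ℝ) (m : ℂ)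
    (h : ∀ g : G K, (∫ θ in a..b, κ θ * ψ (g * Y θ)) = m * ψ g) (g : G K) :
    (∫ θ in a..b, κ θ * avg949 𝔫 𝒦 ψ (g * Y θ)) = m * avg949 𝔫 𝒦 ψ g := by
  have e : (fun θ => κ θ * avg949 𝔫 𝒦 ψ (g * Y θ))
      = fun θ => ((Fintype.card (𝒦 ⧸ (U949 𝔫).subgroupOf 𝒦) : ℂ))⁻¹
          * ∑ q, κ θ * ψ (g * rep949 𝔫 𝒦 q * Y θ) := by
    funext θ
    rw [avg_apply247]
    have hq : ∀ q : 𝒦 ⧸ (U949 𝔫).subgroupOf 𝒦,
        ψ (g * Y θ * rep949 𝔫 𝒦 q) = ψ (g * rep949 𝔫 𝒦 q * Y θ) := by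
      intro q
      rw [mul_assoc g, mul_assoc g,
        ← commute_of_triv949 (h𝒦 (rep_mem949 𝔫 𝒦 q)).1 (hYf θ)]
    rw [Finset.sum_congr rfl (fun q _ => hq q), ← Finset.mul_sum]
    ring
  have hint : ∀ q : 𝒦 ⧸ (U949 𝔫).subgroupOf 𝒦,
      IntervalIntegrable (fun θ => κ θ * ψ (g * rep949 𝔫 𝒦 q * Y θ)) volume a b := fun q =>
    (hκ.mul (hc.comp (continuous_const.mul hYc))).intervalIntegrable a b
  rw [e, intervalIntegral.integral_const_mul,
    intervalIntegral.integral_finset_sum (fun q _ => hint q),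
    Finset.sum_congr rfl (fun q _ => h (g * rep949 𝔫 𝒦 q)), ← Finset.mul_sum, avg_apply247]
  ring

end Avg

end Fermat.Agent.LT.T7.H247

end
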