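import Mathlib
import Fermat.Agent.LT.T1.Closed
import Fermat.Agent.LT.T7.H128.TranslInner
import Fermat.Agent.LT.T7.H341.WBasisQSpec
import Fermat.Agent.LT.T7.H247.IwProjCore

/-!
# Row LT, tower T7, leaf T7.L2Q.3.7.4.3 `WBQ341.IwProjQC341 n` (helper247, registry row 2446)

OFF-MAIN.  No hole, nothing assumed.  ADDITIVE (new names only, suffix `247`).

    iwProjQC247 (n : QWt) : WBQ341.IwProjQC341 n        (VERBATIM, UNCONDITIONAL, both types)

`P` = the mean `H949.avg949 𝔫 𝒦` over the cosets of `U(𝔫)` in `𝒦 = ⟨U(𝔫), I_u⟩` (helper949);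
the properties are those of `IwProjCore.lean`; `T1.t1Out ℚ` (closed T1) and
`H128.translInnerC128 ℚ` (helper128) are plugged.  The circle means: the family `Y` is continuous
(`A2.H751.continuous_of_local751`, helper751) and commutes with the representatives.
-/

set_option autoImplicit false
set_option linter.style.haveILetI false
set_option linter.unusedSectionVars false
set_option linter.unusedVariables false

open AutomorphicForm IsDedekindDomain NumberField MeasureTheory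
open scoped ComplexConjugate

noncomputable section

namespace Fermat.Agent.LT.T7.H247

open Fermat.Agent.LT.H556 Fermat.Agent.LT.H556.A0 Fermat.Agent.LT.H670 Fermat.Agent.LT.T7
open Fermat.Agent.LT.T7.L2Q Fermat.Agent.LT.T7.SDQ140 Fermat.Agent.LT.T7.WBQ341
open Fermat.Agent.LT.T7.H40 Fermat.Agent.LT.T7.H949

attribute [local instance] Fermat.Agent.LT.T5.instMeasurableSpaceG

/-! ## 1. The rotation families -/

theorem continuous_rotY247 : Continuous fun θ : ℝ => rotY θ := by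
  unfold rotY
  refine continuous_matrix fun i j => ?_
  fin_cases i <;> fin_cases j <;> simp <;> fun_prop

theorem det_rotY247 (θ : ℝ) : (rotY θ).det = 1 := by
  unfold rotY
  rw [Matrix.det_fin_two_of]
  have h := Real.cos_sq_add_sin_sq (θ / 2)
  have h2 : ((Real.cos (θ / 2) : ℝ) : ℂ) ^ 2 + ((Real.sin (θ / 2) : ℝ) : ℂ) ^ 2 = 1 := by
    exact_mod_cast h
  linear_combination h2

theorem continuous_rotC247 : Continuous fun θ : ℝ => QOut.rotC θ := by
  unfold QOut.rotC
  refine continuous_matrix fun i j => ?_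
  fin_cases i <;> fin_cases j <;> simp <;> fun_prop

theorem det_rotC247 (θ : ℝ) : (QOut.rotC θ).det = 1 := by
  unfold QOut.rotC
  rw [Matrix.det_fin_two_of]
  have h := Real.cos_sq_add_sin_sq θ
  have h2 : ((Real.cos θ : ℝ) : ℂ) ^ 2 + ((Real.sin θ : ℝ) : ℂ) ^ 2 = 1 := by
    exact_mod_cast h
  linear_combination h2

theorem det_torus247 (t : ℝ) : (torus t).det = 1 := by
  unfold torus
  rw [Matrix.det_fin_two_of]
  have h : Real.exp (t / 2) * Real.exp (-(t / 2)) = 1 := by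
    rw [← Real.exp_add, add_neg_cancel, Real.exp_zero]
  have h2 : ((Real.exp (t / 2) : ℝ) : ℂ) * ((Real.exp (-(t / 2)) : ℝ) : ℂ) = 1 := by
    exact_mod_cast h
  linear_combination h2

/-- A family supported at the infinite place `w` whose component is `R θ * torus t`, `R`
continuous of determinant `1`, is continuous. -/
theorem continuous_family247 {K : Type} [Field K] [NumberField K] (w : InfinitePlace K)
    (R : ℝ → Matrix (Fin 2) (Fin 2) ℂ) (hR : Continuous R) (hdet : ∀ θ, (R θ).det = 1) (t : ℝ)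
    (Y : ℝ → G K) (hY : ∀ θ : ℝ, IsLocalAtInf w (Y θ) ∧ infComp w (Y θ) = R θ * torus t) :
    Continuous Y := by
  refine Fermat.Agent.LT.A2.H751.continuous_of_local751 w Y (fun θ => (hY θ).1) ?_ ?_
  · have e : (fun θ => infComp w (Y θ)) = fun θ => R θ * torus t := funext fun θ => (hY θ).2
    rw [e]
    exact hR.matrix_mul continuous_const
  · intro θ
    rw [(hY θ).2, Matrix.det_mul, hdet, det_torus247, one_mul]

/-! ## 2. The leaf -/

/-- **LEAF T7.L2Q.3.7.4.3 = `WBQ341.IwProjQC341 n`, VERBATIM.** -/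
theorem iwProjQC247 (n : QWt) : WBQ341.IwProjQC341 n := by
  intro μ F r 𝔫 u h𝔫 hτ hFr hr hu
  have hK0 : KK949 𝔫 1 (fun _ => u) ≤ K0949 ℚ := KK_le_K0949 𝔫 1 _
  have hfinq : Finite (KK949 𝔫 1 (fun _ => u) ⧸ (U949 𝔫).subgroupOf (KK949 𝔫 1 (fun _ => u))) :=
    finite_quot949 𝔫 h𝔫 _ hK0
  letI : Fintype (KK949 𝔫 1 (fun _ => u) ⧸ (U949 𝔫).subgroupOf (KK949 𝔫 1 (fun _ => u))) :=
    Fintype.ofFinite _
  have hU0 : U949 𝔫 ≤ KK949 𝔫 1 (fun _ => u) := le_sup_left
  have hIw : iwSet949 1 (fun _ => u) ⊆ ((KK949 𝔫 1 (fun _ => u) : Subgroup (G ℚ)) : Set (G ℚ)) :=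
    fun h hh => (le_sup_right : Subgroup.closure (iwSet949 1 (fun _ => u))
      ≤ KK949 𝔫 1 (fun _ => u)) (Subgroup.subset_closure hh)
  have hT : Fermat.Agent.LT.T1.T1Out ℚ := Fermat.Agent.LT.T1.t1Out ℚ
  have hTI : TranslInnerC ℚ := Fermat.Agent.LT.T7.H128.translInnerC128 ℚ
  have hmem : ∀ ψ : G ℚ → ℂ, InV2Q341 n 𝔫 r ψ →
      IsWFnQ n 𝔫 r u (avg949 𝔫 (KK949 𝔫 1 (fun _ => u)) ψ) := fun ψ hψ =>
    ⟨isCuspFn_avg247 𝔫 _ hT hK0 hU0 hr hψ.cusp,
      fun w z hz g => posInv_avg247 𝔫 _ hK0 hψ.arch_scalar w z hz g,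
      isIwInv_avg247 𝔫 _ hIw hψ.cusp.aut.level_inv⟩
  refine ⟨avg949 𝔫 (KK949 𝔫 1 (fun _ => u)), avg_add247 𝔫 _, avg_smul247 𝔫 _, hmem, ?_, ?_⟩
  · intro ψ hψ χ hχ
    have hχ' : IsWFnQ n 𝔫 r u χ := hχ
    exact inner_avg247 𝔫 _ hTI hFr hr hψ.cusp hχ'.cusp
      (fun k hk x => KK_le_stab949 hχ'.cusp.aut.level_inv hχ'.iw hk x)
  · intro c ψ hψ
    refine (⟨hmem ψ hψ.inv, fun v hv => hecke_avg247 𝔫 _ hK0 (hψ.hecke v hv), fun w => ?_⟩ :
      IsEigFnQ n 𝔫 r u _ c)
    have hm := hψ.mean w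
    cases n with
    | w0 =>
      have hm0 : MeanEigR0 ψ w (c.m w) := hm
      show MeanEigR0 _ w (c.m w)
      intro t ht Y hY g
      have hYc : Continuous Y :=
        continuous_family247 w (fun θ => rotY θ) continuous_rotY247 det_rotY247 t Y hY
      have h1 := mean_avg247 𝔫 (KK949 𝔫 1 (fun _ => u)) hK0 hψ.inv.cusp.cont hYc
        (fun θ v => (hY θ).1.2 v) (κ := fun _ => (1 : ℂ)) continuous_const 0 (2 * Real.pi)
        (c.m w t) (fun g => by
          have := hm0 t ht Y hY g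
          simpa only [one_mul] using this) g
      simpa only [one_mul] using h1
    | w1 =>
      have hm1 : MeanEigR1 ψ w (c.m w) := hm
      show MeanEigR1 _ w (c.m w)
      intro t ht Y hY g
      have hYc : Continuous Y :=
        continuous_family247 w (fun θ => QOut.rotC θ) continuous_rotC247 det_rotC247 t Y hY
      exact mean_avg247 𝔫 (KK949 𝔫 1 (fun _ => u)) hK0 hψ.inv.cusp.cont hYc
        (fun θ v => (hY θ).1.2 v)
        (κ := fun θ : ℝ => Complex.exp (-(Complex.I * ((θ : ℝ) : ℂ)))) (by fun_prop)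
        0 (2 * Real.pi) (c.m w t) (fun g => hm1 t ht Y hY g) g

example (n : QWt) : WBQ341.IwProjQC341 n := iwProjQC247 n

end Fermat.Agent.LT.T7.H247

end
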